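/-
The `r`-adic Kummer class of a rational point of `J₀(N)`, in the coordinates of
`EichlerShimura.galMatrix`.
-/
import Fermat.Agent.EichlerShimura.GaloisMatrices

set_option autoImplicit false
set_option linter.unusedSectionVars false

noncomputable section

open CongruenceSubgroup ModularCurve IsLocalRing Matrix
open scoped MatrixGroups
open Fermat.Agent.EichlerShimura

namespace Fermat.Agent.Mazur.Kummer

local notation "Γℚ" => (AlgebraicClosure ℚ ≃ₐ[ℚ] AlgebraicClosure ℚ)

section Approx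

variable (r : ℕ) [Fact r.Prime] {O : Type} [CommRing O] [IsLocalRing O] {R : ℕ}

/-- `c` approximates the vector `v` of `r`-power torsion modulo `mⁿ`. -/
def Approx (n : ℕ) (v : Fin R → QZ) (c : Fin R → O) : Prop :=
  ∀ i, ∃ z : ℤ, v i = z • rootPow r n ∧ c i - (z : O) ∈ maximalIdeal O ^ n

variable {r} {n : ℕ} {v w : Fin R → QZ} {c d : Fin R → O}

theorem approx_zero : Approx r n (0 : Fin R → QZ) (0 : Fin R → O) :=
  fun _ => ⟨0, by simp, by simp⟩

theorem Approx.add (hv : Approx r n v c) (hw : Approx r n w d) : Approx r n (v + w) (c + d) := by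
  intro i
  obtain ⟨a, ha, hca⟩ := hv i
  obtain ⟨b, hb, hdb⟩ := hw i
  refine ⟨a + b, by rw [Pi.add_apply, ha, hb, add_zsmul], ?_⟩
  rw [Pi.add_apply, Int.cast_add, add_sub_add_comm]
  exact Ideal.add_mem _ hca hdb

theorem Approx.neg (hv : Approx r n v c) : Approx r n (-v) (-c) := by
  intro i
  obtain ⟨a, ha, hca⟩ := hv i
  refine ⟨-a, by rw [Pi.neg_apply, ha, neg_zsmul], ?_⟩
  rw [Pi.neg_apply, Int.cast_neg, neg_sub_neg, ← neg_sub]
  exact Ideal.neg_mem_iff _ |>.mpr hca

theorem Approx.sub (hv : Approx r n v c) (hw : Approx r n w d) : Approx r n (v - w) (c - d) := by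
  rw [sub_eq_add_neg, sub_eq_add_neg]; exact hv.add hw.neg

theorem Approx.zsmul (hv : Approx r n v c) (m : ℤ) : Approx r n (m • v) ((m : O) • c) := by
  intro i
  obtain ⟨a, ha, hca⟩ := hv i
  refine ⟨m * a, by rw [Pi.smul_apply, ha, smul_smul], ?_⟩
  rw [Pi.smul_apply, smul_eq_mul, Int.cast_mul, ← mul_sub]
  exact Ideal.mul_mem_left _ _ hca

variable [IsAdicComplete (maximalIdeal O) O]

theorem Approx.mem_of_zero (hpO : (r : O) ∈ maximalIdeal O)
    (hv : Approx r n (0 : Fin R → QZ) c) (i : Fin R) : c i ∈ maximalIdeal O ^ n := by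
  obtain ⟨a, ha, hca⟩ := hv i
  obtain ⟨q, hq⟩ := (zsmul_rootPow_eq_zero_iff r n a).mp (by rw [← ha]; rfl)
  have h : (a : O) ∈ maximalIdeal O ^ n := by
    rw [hq, Int.cast_mul, Int.cast_natCast]
    exact Ideal.mul_mem_right _ _ (natCast_pow_mem_pow hpO n)
  simpa using Ideal.add_mem _ hca h

theorem eq_zero_of_forall_mem {x : O} (h : ∀ k : ℕ, x ∈ maximalIdeal O ^ k) : x = 0 :=
  IsHausdorff.haus' (I := maximalIdeal O) x fun k => by
    rw [SModEq.zero, smul_eq_mul, Ideal.mul_top]
    exact h k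

theorem eq_of_forall_approx (hpO : (r : O) ∈ maximalIdeal O) {u : ℕ → Fin R → QZ}
    {c d : Fin R → O} (hc : ∀ k, Approx r k (u k) c) (hd : ∀ k, Approx r k (u k) d) : c = d := by
  funext i
  rw [← sub_eq_zero]
  refine eq_zero_of_forall_mem fun k => ?_
  have h := (hc k).sub (hd k)
  rw [sub_self] at h
  exact h.mem_of_zero hpO i

theorem pow_nsmul_rootPow {j k : ℕ} (hjk : j ≤ k) : r ^ (k - j) • rootPow r k = rootPow r j := by
  rw [← natCast_zsmul, zsmul_rootPow, rootPow]
  congr 1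
  have hr : (r : ℚ) ≠ 0 := Nat.cast_ne_zero.mpr (Fact.out (p := r.Prime)).ne_zero
  obtain ⟨l, rfl⟩ := Nat.exists_eq_add_of_le hjk
  rw [Nat.add_sub_cancel_left, Nat.cast_pow, Int.cast_pow, Int.cast_natCast, pow_add]
  field_simp

theorem exists_approx_of_compatible (hpO : (r : O) ∈ maximalIdeal O) (u : ℕ → Fin R → QZ)
    (h0 : ∀ k, r ^ k • u k = 0) (hcomp : ∀ k, r • u (k + 1) = u k) :
    ∃ c : Fin R → O, ∀ k, Approx r k (u k) c := by
  have hzero : ∀ k i, r ^ k • u k i = 0 := fun k i => by rw [← Pi.smul_apply, h0, Pi.zero_apply]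
  choose m hm using fun k i => exists_zsmul_rootPow r (hzero k i)
  have hdown : ∀ j k, j ≤ k → r ^ (k - j) • u k = u j := by
    intro j k hjk
    induction k, hjk using Nat.le_induction with
    | base => simp
    | succ k hk ih => rw [Nat.succ_sub hk, pow_succ', mul_nsmul, hcomp k, ih]
  have hcong : ∀ j k, j ≤ k → ∀ i, ((m j i : O) - m k i) ∈ maximalIdeal O ^ j := by
    intro j k hjk i
    have h := congrFun (hdown j k hjk) i
    rw [Pi.smul_apply, hm k i, hm j i, smul_comm, pow_nsmul_rootPow hjk] at h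
    obtain ⟨q, hq⟩ := (zsmul_rootPow_eq_zero_iff r j (m j i - m k i)).mp
      (by rw [sub_zsmul, h, add_neg_cancel])
    rw [← Int.cast_sub, hq, Int.cast_mul, Int.cast_natCast]
    exact Ideal.mul_mem_right _ _ (natCast_pow_mem_pow hpO j)
  have hlim : ∀ i, ∃ L : O, ∀ k, L - (m k i : O) ∈ maximalIdeal O ^ k := by
    intro i
    obtain ⟨L, hL⟩ := IsPrecomplete.prec' (I := maximalIdeal O) (fun k => (m k i : O))
      (fun {j k} hjk => by
        rw [SModEq.sub_mem, smul_eq_mul, Ideal.mul_top]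
        exact hcong j k hjk i)
    refine ⟨L, fun k => ?_⟩
    have h := hL k
    rw [SModEq.sub_mem, smul_eq_mul, Ideal.mul_top] at h
    rw [← neg_sub]
    exact Ideal.neg_mem_iff _ |>.mpr h
  choose L hL using hlim
  exact ⟨L, fun k i => ⟨m k i, hm k i, hL i k⟩⟩

theorem endToRingMatrix_approx (hpO : (r : O) ∈ maximalIdeal O) (Φ : Module.End ℤ (Fin R → QZ))
    (j : Fin R) :
    Approx r n (Φ (Pi.single j (rootPow r n))) fun i => endToRingMatrix r hpO R Φ i j := by
  intro i
  set φ := endVecRingEquivMatrixEnd (Fin R) ℤ QZ Φ i j with hφ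
  obtain ⟨z, hz⟩ := ZMod.intCast_surjective (endToZMod r n φ)
  refine ⟨z, ?_, ?_⟩
  · rw [← rootHom_intCast, hz, rootHom_endToZMod]
    rfl
  · dsimp only
    rw [← Ideal.Quotient.eq_zero_iff_mem, map_sub, map_intCast, sub_eq_zero, endToRingMatrix,
      RingHom.comp_apply, RingHom.mapMatrix_apply, Matrix.map_apply, padicToRing,
      IsAdicComplete.mk_liftRingHom]
    exact padicLevel_intCast_toZModPow hpO ((toZModPow_endToPadic r φ n).trans hz.symm)

theorem Approx.map (hpO : (r : O) ∈ maximalIdeal O) (Φ : Module.End ℤ (Fin R → QZ))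
    (hv : Approx r n v c) : Approx r n (Φ v) (endToRingMatrix r hpO R Φ *ᵥ c) := by
  choose a ha hca using hv
  intro i
  choose z hz hMz using fun j => endToRingMatrix_approx (n := n) hpO Φ j i
  refine ⟨∑ j, a j * z j, ?_, ?_⟩
  · conv_lhs => rw [← Finset.univ_sum_single v, map_sum, Finset.sum_apply]
    rw [Finset.sum_smul]
    refine Finset.sum_congr rfl fun j _ => ?_
    rw [ha j, Pi.single_zsmul, map_zsmul, Pi.smul_apply, hz j, smul_smul]
  · rw [mulVec, dotProduct, Int.cast_sum, ← Finset.sum_sub_distrib]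
    refine Ideal.sum_mem _ fun j _ => ?_
    have h := hMz j
    rw [show endToRingMatrix r hpO R Φ i j * c j - ((a j * z j : ℤ) : O) =
      (endToRingMatrix r hpO R Φ i j - z j) * c j + (z j : O) * (c j - a j) by push_cast; ring]
    exact Ideal.add_mem _ (Ideal.mul_mem_right _ _ h) (Ideal.mul_mem_left _ _ (hca j))

end Approx

variable {N : ℕ} [NeZero N]

theorem smul_nsmul_pt (σ : Γℚ) (m : ℕ) (z : JZero N) : σ • (m • z) = m • (σ • z) :=
  (DistribSMul.toAddMonoidHom (JZero N) σ).map_nsmul m z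

/-- A compatible system of `r`-power roots of a point. -/
structure DivSeq (r : ℕ) (x : JZero N) where
  y : ℕ → JZero N
  y_zero : y 0 = x
  nsmul_succ : ∀ k, r • y (k + 1) = y k

namespace DivSeq

variable {r : ℕ} {x x' : JZero N}

theorem nonempty_of_surjective (hdiv : ∀ z : JZero N, ∃ z' : JZero N, r • z' = z) (x : JZero N) :
    Nonempty (DivSeq r x) := by
  choose g hg using hdiv
  exact ⟨⟨fun k => Nat.rec x (fun _ z => g z) k, rfl, fun k => hg _⟩⟩

theorem pow_nsmul (s : DivSeq r x) (k : ℕ) : r ^ k • s.y k = x := by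
  induction k with
  | zero => rw [pow_zero, one_nsmul, s.y_zero]
  | succ k ih => rw [pow_succ, mul_nsmul', s.nsmul_succ, ih]

theorem nsmul_diff (s : DivSeq r x) (hx : ∀ σ : Γℚ, σ • x = x) (σ : Γℚ) (k : ℕ) :
    r ^ k • (σ • s.y k - s.y k) = 0 := by
  rw [nsmul_sub, ← smul_nsmul_pt σ (r ^ k) (s.y k), s.pow_nsmul, hx, sub_self]

/-- The sum of two sequences. -/
def add (s : DivSeq r x) (s' : DivSeq r x') : DivSeq r (x + x') where
  y k := s.y k + s'.y k
  y_zero := by rw [s.y_zero, s'.y_zero]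
  nsmul_succ k := by rw [nsmul_add, s.nsmul_succ, s'.nsmul_succ]

/-- The image of a sequence under an additive map. -/
def map (s : DivSeq r x) (T : JZero N →+ JZero N) : DivSeq r (T x) where
  y k := T (s.y k)
  y_zero := by rw [s.y_zero]
  nsmul_succ k := by rw [← map_nsmul, s.nsmul_succ]

end DivSeq

section Class

variable (e : torsionPts N ≃+ Periods.cuspidalHoms ℤ (Gamma0 N) QZ) {r : ℕ} [Fact r.Prime]
  {x x' : JZero N} (s : DivSeq r x) (hx : ∀ σ : Γℚ, σ • x = x)

/-- `σ y_k - y_k` as a torsion point. -/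
def diffPt (σ : Γℚ) (k : ℕ) : torsionPts N :=
  ⟨σ • s.y k - s.y k, isOfFinAddOrder_iff_nsmul_eq_zero.mpr
    ⟨r ^ k, pow_pos (Fact.out (p := r.Prime)).pos k, s.nsmul_diff hx σ k⟩⟩

/-- The coordinates of `σ y_k - y_k`. -/
def diffVec (σ : Γℚ) (k : ℕ) : Fin (cuspRank N) → QZ :=
  torsionCoords e (diffPt s hx σ k)

theorem pow_nsmul_diffVec (σ : Γℚ) (k : ℕ) : r ^ k • diffVec e s hx σ k = 0 := by
  rw [diffVec, ← map_nsmul, map_eq_zero_iff _ (torsionCoords e).injective]
  exact Subtype.ext (s.nsmul_diff hx σ k)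

theorem nsmul_diffVec_succ (σ : Γℚ) (k : ℕ) :
    r • diffVec e s hx σ (k + 1) = diffVec e s hx σ k := by
  rw [diffVec, ← map_nsmul]
  congr 1
  refine Subtype.ext ?_
  show r • (σ • s.y (k + 1) - s.y (k + 1)) = σ • s.y k - s.y k
  rw [nsmul_sub, ← smul_nsmul_pt σ r (s.y (k + 1)), s.nsmul_succ]

theorem diffVec_mul (σ τ : Γℚ) (k : ℕ) :
    diffVec e s hx (σ * τ) k = diffVec e s hx σ k + galEnd e σ (diffVec e s hx τ k) := by
  rw [diffVec, diffVec, diffVec, galEnd_apply, AddEquiv.symm_apply_apply, ← map_add]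
  congr 1
  refine Subtype.ext ?_
  show (σ * τ) • s.y k - s.y k = (σ • s.y k - s.y k) + σ • (τ • s.y k - s.y k)
  rw [mul_smul, smul_sub]
  abel

theorem diffVec_eq_zero {σ : Γℚ} {k : ℕ} (h : σ • s.y k = s.y k) :
    diffVec e s hx σ k = 0 := by
  rw [diffVec, map_eq_zero_iff _ (torsionCoords e).injective]
  exact Subtype.ext (sub_eq_zero.mpr h)

variable {O : Type} [CommRing O] [IsLocalRing O] [IsAdicComplete (maximalIdeal O) O]
  (hpO : (r : O) ∈ maximalIdeal O)

/-- The Kummer class attached to a division sequence. -/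
def kummerClass (σ : Γℚ) : Fin (cuspRank N) → O :=
  (exists_approx_of_compatible hpO (diffVec e s hx σ) (pow_nsmul_diffVec e s hx σ)
    (nsmul_diffVec_succ e s hx σ)).choose

theorem approx_kummerClass (σ : Γℚ) (k : ℕ) :
    Approx r k (diffVec e s hx σ k) (kummerClass e s hx hpO σ) :=
  (exists_approx_of_compatible hpO (diffVec e s hx σ) (pow_nsmul_diffVec e s hx σ)
    (nsmul_diffVec_succ e s hx σ)).choose_spec k

theorem kummerClass_mul (σ τ : Γℚ) :
    kummerClass e s hx hpO (σ * τ) =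
      kummerClass e s hx hpO σ + galMatrix e r hpO σ *ᵥ kummerClass e s hx hpO τ := by
  refine eq_of_forall_approx hpO (approx_kummerClass e s hx hpO (σ * τ)) fun k => ?_
  rw [diffVec_mul, galMatrix_apply]
  exact (approx_kummerClass e s hx hpO σ k).add ((approx_kummerClass e s hx hpO τ k).map hpO _)

theorem kummerClass_mem_pow {σ : Γℚ} {n : ℕ} (h : σ • s.y n = s.y n) (i : Fin (cuspRank N)) :
    kummerClass e s hx hpO σ i ∈ maximalIdeal O ^ n := by
  have h1 := approx_kummerClass e s hx hpO σ n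
  rw [diffVec_eq_zero e s hx h] at h1
  exact h1.mem_of_zero hpO i

theorem kummerClass_eq_zero {σ : Γℚ} (h : ∀ k, σ • s.y k = s.y k) :
    kummerClass e s hx hpO σ = 0 := by
  funext i
  exact eq_zero_of_forall_mem fun k => kummerClass_mem_pow e s hx hpO (h k) i

theorem kummerClass_continuous (hL : GaloisFiniteLevel N) (n : ℕ) :
    ∃ L : IntermediateField ℚ (AlgebraicClosure ℚ), FiniteDimensional ℚ L ∧
      ∀ σ : Γℚ, (∀ a ∈ L, σ a = a) →
        ∀ i, kummerClass e s hx hpO σ i ∈ maximalIdeal O ^ n := by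
  obtain ⟨L, hL1, hL2⟩ := hL (s.y n)
  exact ⟨L, hL1, fun σ hσ => kummerClass_mem_pow e s hx hpO (hL2 σ hσ)⟩

theorem kummerClass_add (s' : DivSeq r x') (hx' : ∀ σ : Γℚ, σ • x' = x')
    (hxx' : ∀ σ : Γℚ, σ • (x + x') = x + x') (σ : Γℚ) :
    kummerClass e (s.add s') hxx' hpO σ =
      kummerClass e s hx hpO σ + kummerClass e s' hx' hpO σ := by
  refine eq_of_forall_approx hpO (approx_kummerClass e (s.add s') hxx' hpO σ) fun k => ?_
  have h : diffVec e (s.add s') hxx' σ k = diffVec e s hx σ k + diffVec e s' hx' σ k := by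
    rw [diffVec, diffVec, diffVec, ← map_add]
    congr 1
    refine Subtype.ext ?_
    show σ • (s.y k + s'.y k) - (s.y k + s'.y k) = _ + _
    rw [smul_add, add_sub_add_comm]
    rfl
  rw [h]
  exact (approx_kummerClass e s hx hpO σ k).add (approx_kummerClass e s' hx' hpO σ k)

theorem kummerClass_map (T : JZero N →+ JZero N) (hT : ∀ (τ : Γℚ) (z : JZero N), τ • T z = T (τ • z))
    (hTx : ∀ σ : Γℚ, σ • T x = T x) (σ : Γℚ) :
    kummerClass e (s.map T) hTx hpO σ =
      endToRingMatrix r hpO _ (coordEnd e (torsionMap T)) *ᵥ kummerClass e s hx hpO σ := by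
  refine eq_of_forall_approx hpO (approx_kummerClass e (s.map T) hTx hpO σ) fun k => ?_
  have h : diffVec e (s.map T) hTx σ k = coordEnd e (torsionMap T) (diffVec e s hx σ k) := by
    rw [diffVec, diffVec, coordEnd_apply, AddEquiv.symm_apply_apply]
    congr 1
    refine Subtype.ext ?_
    show σ • T (s.y k) - T (s.y k) = T (σ • s.y k - s.y k)
    rw [hT, map_sub]
  rw [h]
  exact (approx_kummerClass e s hx hpO σ k).map hpO _

/-- Two division sequences of the same point give cohomologous classes. -/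
theorem exists_kummerClass_sub (s' : DivSeq r x) :
    ∃ w : Fin (cuspRank N) → O, ∀ σ : Γℚ,
      kummerClass e s' hx hpO σ = kummerClass e s hx hpO σ + (galMatrix e r hpO σ *ᵥ w - w) := by
  have hd : ∀ k, r ^ k • (s'.y k - s.y k) = 0 := fun k => by
    rw [nsmul_sub, s'.pow_nsmul, s.pow_nsmul, sub_self]
  let dp : ℕ → torsionPts N := fun k => ⟨s'.y k - s.y k, isOfFinAddOrder_iff_nsmul_eq_zero.mpr
    ⟨r ^ k, pow_pos (Fact.out (p := r.Prime)).pos k, hd k⟩⟩
  obtain ⟨w, hw⟩ := exists_approx_of_compatible hpO (fun k => torsionCoords e (dp k))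
    (fun k => by
      rw [← map_nsmul, map_eq_zero_iff _ (torsionCoords e).injective]
      exact Subtype.ext (hd k))
    (fun k => by
      rw [← map_nsmul]
      congr 1
      refine Subtype.ext ?_
      show r • (s'.y (k + 1) - s.y (k + 1)) = _
      rw [nsmul_sub, s'.nsmul_succ, s.nsmul_succ])
  refine ⟨w, fun σ => eq_of_forall_approx hpO (approx_kummerClass e s' hx hpO σ) fun k => ?_⟩
  have h : diffVec e s' hx σ k = diffVec e s hx σ k +
      (galEnd e σ (torsionCoords e (dp k)) - torsionCoords e (dp k)) := by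
    rw [diffVec, diffVec, galEnd_apply, AddEquiv.symm_apply_apply, ← map_sub, ← map_add]
    congr 1
    refine Subtype.ext ?_
    show σ • s'.y k - s'.y k = (σ • s.y k - s.y k) + (σ • (s'.y k - s.y k) - (s'.y k - s.y k))
    rw [smul_sub]
    abel
  rw [h, galMatrix_apply]
  exact (approx_kummerClass e s hx hpO σ k).add (((hw k).map hpO _).sub (hw k))

end Class

end Fermat.Agent.Mazur.Kummer
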