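/-
Kummer classes of independent rational points are linearly independent.
-/
import Fermat.Agent.Mazur.Kummer.Class
import Mathlib.LinearAlgebra.FreeModule.PID
import Mathlib.LinearAlgebra.Matrix.DotProduct
import Mathlib.LinearAlgebra.Matrix.ToLinearEquiv
import Mathlib.GroupTheory.Finiteness
import Mathlib.Algebra.Module.Torsion.Basic

set_option autoImplicit false
set_option linter.unusedSectionVars false

noncomputable section

open CongruenceSubgroup ModularCurve IsLocalRing Matrix
open scoped MatrixGroups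
open Fermat.Agent.EichlerShimura

namespace Fermat.Agent.Mazur.Kummer

local notation "Γℚ" => (AlgebraicClosure ℚ ≃ₐ[ℚ] AlgebraicClosure ℚ)

variable {r : ℕ} [Fact r.Prime]

theorem natCast_mem_maximalIdeal_padicInt : (r : ℤ_[r]) ∈ maximalIdeal ℤ_[r] := by
  rw [PadicInt.maximalIdeal_eq_span_p]
  exact Ideal.mem_span_singleton_self _

theorem intCast_mem_pow_iff {n : ℕ} {z : ℤ} :
    (z : ℤ_[r]) ∈ maximalIdeal ℤ_[r] ^ n ↔ ((r ^ n : ℕ) : ℤ) ∣ z := by
  rw [PadicInt.maximalIdeal_eq_span_p, Ideal.span_singleton_pow, ← PadicInt.ker_toZModPow,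
    RingHom.mem_ker, map_intCast, ZMod.intCast_zmod_eq_zero_iff_dvd]

theorem Approx.eq_zero {R n : ℕ} {v : Fin R → QZ} {c : Fin R → ℤ_[r]}
    (hv : Approx r n v c) (hc : ∀ i, c i ∈ maximalIdeal ℤ_[r] ^ n) : v = 0 := by
  funext i
  obtain ⟨z, hz, hcz⟩ := hv i
  have h : (z : ℤ_[r]) ∈ maximalIdeal ℤ_[r] ^ n := by simpa using Ideal.sub_mem _ (hc i) hcz
  rw [hz, Pi.zero_apply, zsmul_rootPow_eq_zero_iff]
  exact intCast_mem_pow_iff.mp h

section BaseChange

variable {O : Type} [CommRing O] [IsLocalRing O] [IsAdicComplete (maximalIdeal O) O]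
  (hpO : (r : O) ∈ maximalIdeal O) (φ : ℤ_[r] →+* O)

include hpO in
theorem map_mem_pow {n : ℕ} {a : ℤ_[r]} (ha : a ∈ maximalIdeal ℤ_[r] ^ n) :
    φ a ∈ maximalIdeal O ^ n := by
  rw [PadicInt.maximalIdeal_eq_span_p, Ideal.span_singleton_pow, Ideal.mem_span_singleton] at ha
  obtain ⟨b, rfl⟩ := ha
  rw [map_mul, map_pow, map_natCast]
  exact Ideal.mul_mem_right _ _ (Ideal.pow_mem_pow hpO n)

include hpO in
theorem Approx.mapBase {R n : ℕ} {v : Fin R → QZ} {c : Fin R → ℤ_[r]} (hv : Approx r n v c) :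
    Approx r n v (fun i => φ (c i)) := fun i => by
  obtain ⟨z, hz, hcz⟩ := hv i
  exact ⟨z, hz, by simpa using map_mem_pow hpO φ hcz⟩

theorem endToRingMatrix_base {R : ℕ} (Φ : Module.End ℤ (Fin R → QZ)) :
    endToRingMatrix r hpO R Φ =
      (endToRingMatrix r natCast_mem_maximalIdeal_padicInt R Φ).map φ := by
  ext i j
  exact congrFun (eq_of_forall_approx hpO (u := fun n => Φ (Pi.single j (rootPow r n)))
    (fun n => endToRingMatrix_approx hpO Φ j)
    (fun n => (endToRingMatrix_approx natCast_mem_maximalIdeal_padicInt Φ j).mapBase hpO φ)) i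

variable {N : ℕ} [NeZero N] (e : torsionPts N ≃+ Periods.cuspidalHoms ℤ (Gamma0 N) QZ)
  {x : JZero N} (s : DivSeq r x) (hx : ∀ σ : Γℚ, σ • x = x)

theorem kummerClass_base (σ : Γℚ) :
    kummerClass e s hx hpO σ =
      fun i => φ (kummerClass e s hx natCast_mem_maximalIdeal_padicInt σ i) :=
  eq_of_forall_approx hpO (approx_kummerClass e s hx hpO σ) fun n =>
    (approx_kummerClass e s hx natCast_mem_maximalIdeal_padicInt σ n).mapBase hpO φ

theorem galMatrix_base (σ : Γℚ) :
    galMatrix e r hpO σ = (galMatrix e r natCast_mem_maximalIdeal_padicInt σ).map φ := by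
  rw [galMatrix_apply, galMatrix_apply]
  exact endToRingMatrix_base hpO φ _

end BaseChange

/-- An injective map between lattices has a left inverse up to a nonzero integer. -/
theorem exists_scaled_leftInverse {H : Type*} [AddCommGroup H] [Module.Finite ℤ H]
    [Module.Free ℤ H] {ι : Type*} [Fintype ι] [DecidableEq ι] (f : (ι → ℤ) →ₗ[ℤ] H)
    (hf : Function.Injective f) :
    ∃ (g : H →ₗ[ℤ] (ι → ℤ)) (D : ℤ), D ≠ 0 ∧ ∀ v, g (f v) = D • v := by
  classical
  let β := Module.Free.chooseBasis ℤ H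
  set A := LinearMap.toMatrix (Pi.basisFun ℤ ι) β f
  have hA : ∀ v, A *ᵥ v = (β.repr (f v) : _ → ℤ) := fun v => by
    rw [← LinearMap.toMatrix_mulVec_repr (Pi.basisFun ℤ ι) β f v]
    simp only [A]
    congr 1
  refine ⟨(A.transpose * A).adjugate.mulVecLin ∘ₗ A.transpose.mulVecLin ∘ₗ
      (β.equivFun : H →ₗ[ℤ] _), (A.transpose * A).det, fun h0 => ?_, fun v => ?_⟩
  · obtain ⟨v, hv0, hv⟩ := Matrix.exists_mulVec_eq_zero_iff.mpr h0
    have h1 : (A *ᵥ v) ⬝ᵥ (A *ᵥ v) = 0 := by
      rw [Matrix.dotProduct_mulVec, ← Matrix.mulVec_transpose, Matrix.mulVec_mulVec, hv,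
        zero_dotProduct]
    rw [dotProduct_self_eq_zero, hA] at h1
    have h2 : f v = 0 := β.repr.injective (by rw [map_zero]; exact DFunLike.coe_injective h1)
    exact hv0 (hf (h2.trans (map_zero f).symm))
  · simp only [LinearMap.comp_apply, LinearEquiv.coe_coe, Module.Basis.equivFun_apply, ← hA,
      Matrix.mulVecLin_apply, Matrix.mulVec_mulVec, ← Matrix.mul_assoc, Matrix.adjugate_mul,
      Matrix.smul_mul, Matrix.one_mul, Matrix.smul_mulVec, Matrix.one_mulVec]
    rw [Matrix.mul_assoc, Matrix.adjugate_mul, Matrix.smul_mulVec, Matrix.one_mulVec]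

section Independence

variable {N : ℕ} [NeZero N] (e : torsionPts N ≃+ Periods.cuspidalHoms ℤ (Gamma0 N) QZ)

/-- The rational points. -/
abbrev fixedPts (N : ℕ) [NeZero N] : AddSubgroup (JZero N) :=
  FixedPoints.addSubgroup Γℚ (JZero N)

theorem eq_zero_of_sum_coboundary_padic (hfg : AddGroup.FG (fixedPts N)) {ι : Type*} [Fintype ι]
    (P : ι → JZero N) (s : ∀ i, DivSeq r (P i)) (hfix : ∀ i, ∀ σ : Γℚ, σ • P i = P i)
    (hind : ∀ z : ι → ℤ, IsOfFinAddOrder (∑ i, z i • P i) → z = 0)
    (B : ι → ℤ_[r]) (w : Fin (cuspRank N) → ℤ_[r])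
    (h : ∀ σ : Γℚ, ∑ i, B i • kummerClass e (s i) (hfix i) natCast_mem_maximalIdeal_padicInt σ =
      galMatrix e r natCast_mem_maximalIdeal_padicInt σ *ᵥ w - w) :
    B = 0 := by
  classical
  set hZ := natCast_mem_maximalIdeal_padicInt (r := r)
  -- approximate solutions
  have key : ∀ n : ℕ, ∃ (z : ι → ℤ) (Q : fixedPts N),
      (∀ i, B i - (z i : ℤ_[r]) ∈ maximalIdeal ℤ_[r] ^ n) ∧
        ((r ^ n : ℕ) : ℤ) • (Q : JZero N) = ∑ i, z i • P i := by
    intro n
    have happ : ∀ a : ℤ_[r], ∃ z : ℤ, a - (z : ℤ_[r]) ∈ maximalIdeal ℤ_[r] ^ n := fun a => by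
      obtain ⟨z, hz⟩ := ZMod.intCast_surjective (PadicInt.toZModPow n a)
      refine ⟨z, ?_⟩
      rw [PadicInt.maximalIdeal_eq_span_p, Ideal.span_singleton_pow, ← PadicInt.ker_toZModPow,
        RingHom.mem_ker, map_sub, map_intCast, hz, sub_self]
    choose zz hzz using happ
    set u : Fin (cuspRank N) → QZ := fun i => zz (w i) • rootPow r n with hu
    have hu0 : r ^ n • u = 0 := by
      funext i
      rw [Pi.smul_apply, hu, smul_comm, nsmul_rootPow_self, smul_zero, Pi.zero_apply]
    have happw : Approx r n u w := fun i => ⟨zz (w i), rfl, hzz (w i)⟩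
    set q : torsionPts N := (torsionCoords e).symm u
    refine ⟨fun i => zz (B i), ⟨∑ i, zz (B i) • (s i).y n - (q : JZero N), fun σ => ?_⟩,
      fun i => hzz (B i), ?_⟩
    · have hsum : ∀ t : Finset ι,
          Approx r n (∑ i ∈ t, zz (B i) • diffVec e (s i) (hfix i) σ n)
            (∑ i ∈ t, (zz (B i) : ℤ_[r]) • kummerClass e (s i) (hfix i) hZ σ) := fun t => by
        induction t using Finset.induction_on with
        | empty => simpa using approx_zero
        | insert i t hi ih =>
          rw [Finset.sum_insert hi, Finset.sum_insert hi]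
          exact ((approx_kummerClass e (s i) (hfix i) hZ σ n).zsmul _).add ih
      have htot := (hsum Finset.univ).sub ((happw.map hZ (galEnd e σ)).sub happw)
      rw [← galMatrix_apply, ← h σ, ← Finset.sum_sub_distrib] at htot
      have hvec := htot.eq_zero fun j => by
        rw [Finset.sum_apply]
        refine Ideal.sum_mem _ fun i _ => ?_
        rw [Pi.sub_apply, Pi.smul_apply, Pi.smul_apply, smul_eq_mul, smul_eq_mul, ← sub_mul]
        exact Ideal.mul_mem_right _ _ (by rw [← neg_sub]; exact Ideal.neg_mem_iff _ |>.mpr (hzz (B i)))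
      have hpt : (∑ i, zz (B i) • diffPt (s i) (hfix i) σ n) - (torsionGalois σ q - q) = 0 := by
        apply (torsionCoords e).injective
        rw [map_zero, map_sub, map_sub, map_sum]
        simp only [map_zsmul]
        rw [← galEnd_apply, show torsionCoords e q = u from (torsionCoords e).apply_symm_apply u]
        exact hvec
      have hval := congrArg Subtype.val hpt
      simp only [AddSubgroup.coe_sub, AddSubmonoidClass.coe_finsetSum, AddSubgroupClass.coe_zsmul,
        ZeroMemClass.coe_zero, coe_torsionGalois] at hval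
      show σ • (∑ i, zz (B i) • (s i).y n - (q : JZero N)) = _
      rw [smul_sub, Finset.smul_sum]
      have hz : ∀ i, σ • (zz (B i) • (s i).y n) = zz (B i) • σ • (s i).y n := fun i =>
        (DistribSMul.toAddMonoidHom (JZero N) σ).map_zsmul _ _
      simp only [hz]
      rw [← sub_eq_zero, ← hval]
      simp only [diffPt, zsmul_sub, Finset.sum_sub_distrib]
      abel
    · have hq : r ^ n • (q : JZero N) = 0 := nsmul_coe_symm_eq_zero e hu0
      show ((r ^ n : ℕ) : ℤ) • (∑ i, zz (B i) • (s i).y n - (q : JZero N)) = _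
      rw [natCast_zsmul, nsmul_sub, hq, sub_zero, Finset.smul_sum]
      exact Finset.sum_congr rfl fun i _ => by rw [smul_comm, (s i).pow_nsmul]
  -- the lattice of rational points modulo torsion
  haveI : Module.Finite ℤ (fixedPts N) := Module.Finite.iff_addGroup_fg.mpr hfg
  let T := Submodule.torsion ℤ (fixedPts N)
  let f : (ι → ℤ) →ₗ[ℤ] (fixedPts N ⧸ T) :=
    T.mkQ ∘ₗ Fintype.linearCombination ℤ (fun i => (⟨P i, hfix i⟩ : fixedPts N))
  have hf : Function.Injective f := by
    rw [← LinearMap.ker_eq_bot, Submodule.eq_bot_iff]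
    intro z hz
    refine hind z ?_
    rw [LinearMap.mem_ker, LinearMap.comp_apply, Submodule.mkQ_apply,
      Submodule.Quotient.mk_eq_zero] at hz
    obtain ⟨a, ha⟩ := hz
    have ha' := congrArg (fun y : fixedPts N => (y : JZero N)) ha
    rw [Submonoid.smul_def] at ha'
    simp only [AddSubgroupClass.coe_zsmul, ZeroMemClass.coe_zero, Fintype.linearCombination_apply,
      AddSubmonoidClass.coe_finsetSum] at ha'
    exact isOfFinAddOrder_iff_zsmul_eq_zero.mpr ⟨a, nonZeroDivisors.coe_ne_zero a, ha'⟩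
  obtain ⟨g, D, hD, hg⟩ := exists_scaled_leftInverse f hf
  funext i
  have hDB : (D : ℤ_[r]) * B i = 0 := eq_zero_of_forall_mem fun n => by
    obtain ⟨z, Q, hz, hQ⟩ := key n
    have hfz : f z = ((r ^ n : ℕ) : ℤ) • T.mkQ Q := by
      rw [← map_smul]
      simp only [f, LinearMap.comp_apply]
      congr 1
      refine Subtype.ext ?_
      rw [Fintype.linearCombination_apply, AddSubmonoidClass.coe_finsetSum]
      push_cast
      simpa using hQ.symm
    have hi := congrFun (congrArg g hfz) i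
    rw [hg, map_smul, Pi.smul_apply, Pi.smul_apply, smul_eq_mul, smul_eq_mul] at hi
    have hDz : (D : ℤ_[r]) * z i ∈ maximalIdeal ℤ_[r] ^ n := by
      rw [← Int.cast_mul, intCast_mem_pow_iff, hi]
      exact dvd_mul_right _ _
    have := Ideal.add_mem _ (Ideal.mul_mem_left _ (D : ℤ_[r]) (hz i)) hDz
    rwa [mul_sub, sub_add_cancel] at this
  exact (mul_eq_zero.mp hDB).resolve_left (Int.cast_ne_zero.mpr hD)

variable {O : Type} [CommRing O] [IsDomain O] [IsLocalRing O] [CharZero O]
  [IsAdicComplete (maximalIdeal O) O] [Algebra ℤ_[r] O] [Module.Finite ℤ_[r] O]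

theorem algebraMap_padicInt_injective : Function.Injective (algebraMap ℤ_[r] O) := by
  rw [injective_iff_map_eq_zero]
  intro a ha
  by_contra ha0
  obtain ⟨u, n, rfl⟩ : ∃ (u : ℤ_[r]ˣ) (n : ℕ), a = u * (r : ℤ_[r]) ^ n :=
    ⟨PadicInt.unitCoeff ha0, a.valuation, PadicInt.unitCoeff_spec ha0⟩
  rw [map_mul, map_pow, map_natCast] at ha
  exact pow_ne_zero n (Nat.cast_ne_zero.mpr (Fact.out (p := r.Prime)).ne_zero)
    ((mul_eq_zero.mp ha).resolve_left (u.isUnit.map _).ne_zero)

/-- Kummer classes of points independent modulo torsion stay independent over `O`, even after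
multiplication by a nonzero scalar and modulo coboundaries. -/
theorem eq_zero_of_sum_coboundary (hpO : (r : O) ∈ maximalIdeal O)
    (hfg : AddGroup.FG (fixedPts N)) {ι : Type*} [Fintype ι]
    (P : ι → JZero N) (s : ∀ i, DivSeq r (P i)) (hfix : ∀ i, ∀ σ : Γℚ, σ • P i = P i)
    (hind : ∀ z : ι → ℤ, IsOfFinAddOrder (∑ i, z i • P i) → z = 0)
    (b : ι → O) (w : Fin (cuspRank N) → O)
    (h : ∀ σ : Γℚ, ∑ i, b i • kummerClass e (s i) (hfix i) hpO σ =
      galMatrix e r hpO σ *ᵥ w - w) :
    b = 0 := by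
  set φ := algebraMap ℤ_[r] O
  haveI : Module.IsTorsionFree ℤ_[r] O := by
    rw [Module.isTorsionFree_iff_smul_eq_zero]
    intro a x hax
    rw [Algebra.smul_def, mul_eq_zero] at hax
    exact hax.imp_left fun h => algebraMap_padicInt_injective (h.trans (map_zero _).symm)
  let β := Module.Free.chooseBasis ℤ_[r] O
  have hψ : ∀ l (a : ℤ_[r]) (y : O), β.coord l (φ a * y) = a * β.coord l y := fun l a y => by
    rw [← Algebra.smul_def, map_smul, smul_eq_mul]
  funext i
  apply β.repr.injective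
  ext l
  rw [Pi.zero_apply, map_zero, Finsupp.zero_apply, ← Module.Basis.coord_apply]
  refine congrFun (eq_zero_of_sum_coboundary_padic e hfg P s hfix hind (fun i => β.coord l (b i))
    (fun j => β.coord l (w j)) fun σ => funext fun j => ?_) i
  have hj := congrArg (β.coord l) (congrFun (h σ) j)
  simp only [Finset.sum_apply, Pi.smul_apply, smul_eq_mul, Pi.sub_apply, mulVec, dotProduct,
    map_sum, map_sub, kummerClass_base hpO φ e (s _) (hfix _), galMatrix_base hpO φ e σ,
    Matrix.map_apply, hψ, mul_comm (b _)] at hj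
  simp only [Finset.sum_apply, Pi.smul_apply, smul_eq_mul, Pi.sub_apply, mulVec, dotProduct]
  rw [← hj]
  exact Finset.sum_congr rfl fun k _ => mul_comm _ _

end Independence

end Fermat.Agent.Mazur.Kummer
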